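import Mathlib.RingTheory.MvPowerSeries.Expand
import Mathlib.RingTheory.MvPowerSeries.Order
import Mathlib.Algebra.CharP.Basic
import Mathlib.Algebra.CharP.Frobenius
import Mathlib.Algebra.Ring.GeomSum

/-!
# Congruences of power series modulo powers of an ideal of coefficients
-/

set_option autoImplicit false

noncomputable section

open MvPowerSeries

namespace Fermat.Agent.Hazewinkel

variable {A : Type*} [CommRing A] {ι : Type*}

/-- The series with coefficients in an ideal. -/
def seriesIdeal (I : Ideal A) : Ideal (MvPowerSeries ι A) where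
  carrier := {φ | ∀ e, coeff e φ ∈ I}
  add_mem' := fun {φ ψ} hφ hψ e => by rw [map_add]; exact add_mem (hφ e) (hψ e)
  zero_mem' := fun e => by rw [map_zero]; exact zero_mem _
  smul_mem' := fun c φ hφ e => by
    classical
    rw [smul_eq_mul, coeff_mul]
    exact Ideal.sum_mem _ fun x _ => I.mul_mem_left _ (hφ _)

theorem mem_seriesIdeal {I : Ideal A} {φ : MvPowerSeries ι A} :
    φ ∈ seriesIdeal I ↔ ∀ e, coeff e φ ∈ I :=
  Iff.rfl

theorem mul_mem_seriesIdeal {I J : Ideal A} {φ ψ : MvPowerSeries ι A} (hφ : φ ∈ seriesIdeal I)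
    (hψ : ψ ∈ seriesIdeal J) : φ * ψ ∈ seriesIdeal (ι := ι) (I * J) := fun e => by
  classical
  rw [coeff_mul]
  exact Ideal.sum_mem _ fun x _ => Ideal.mul_mem_mul (hφ _) (hψ _)

theorem seriesIdeal_mono {I J : Ideal A} (h : I ≤ J) :
    (seriesIdeal I : Ideal (MvPowerSeries ι A)) ≤ seriesIdeal J :=
  fun _ hφ e => h (hφ e)

variable {I : Ideal A} {p : ℕ} (hpI : (p : A) ∈ I)

include hpI in
/-- Raising to the power `p` improves a congruence by one step. -/
theorem pow_prime_sub_mem {x y : MvPowerSeries ι A} {r : ℕ} (hr : 1 ≤ r)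
    (h : x - y ∈ seriesIdeal (I ^ r)) : x ^ p - y ^ p ∈ seriesIdeal (I ^ (r + 1)) := by
  rw [← geom_sum₂_mul x y p, mul_comm, pow_succ]
  refine mul_mem_seriesIdeal h ?_
  have h1 : x - y ∈ seriesIdeal I := seriesIdeal_mono (Ideal.pow_le_self (by omega)) h
  set J : Ideal (MvPowerSeries ι A) := seriesIdeal I
  have hp : (p : MvPowerSeries ι A) ∈ J := fun e => by
    classical
    rw [← map_natCast (C (σ := ι)), coeff_C]
    split_ifs
    exacts [hpI, zero_mem _]
  rw [← Ideal.Quotient.eq_zero_iff_mem, map_sum]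
  have hxy : Ideal.Quotient.mk J x = Ideal.Quotient.mk J y := Ideal.Quotient.eq.2 h1
  calc ∑ i ∈ Finset.range p, Ideal.Quotient.mk J (x ^ i * y ^ (p - 1 - i))
      = ∑ i ∈ Finset.range p, Ideal.Quotient.mk J (y ^ (p - 1)) :=
        Finset.sum_congr rfl fun i hi => by
          rw [map_mul, map_pow, map_pow, hxy, ← pow_add, map_pow,
            Nat.add_sub_cancel' (by have := Finset.mem_range.1 hi; omega)]
    _ = 0 := by
      rw [Finset.sum_const, Finset.card_range, nsmul_eq_mul, ← map_natCast (Ideal.Quotient.mk J),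
        Ideal.Quotient.eq_zero_iff_mem.2 hp, zero_mul]

include hpI in
/-- Congruences of powers. -/
theorem pow_sub_pow_mem {x y : MvPowerSeries ι A} (h : x - y ∈ seriesIdeal I) {N k : ℕ}
    (hN : p ^ k ∣ N) : x ^ N - y ^ N ∈ seriesIdeal (I ^ (k + 1)) := by
  obtain ⟨m, rfl⟩ := hN
  have hk : ∀ k, x ^ p ^ k - y ^ p ^ k ∈ seriesIdeal (I ^ (k + 1)) := fun k => by
    induction k with
    | zero => simpa using h
    | succ k ih =>
      rw [pow_succ p, pow_mul, pow_mul]
      exact pow_prime_sub_mem hpI (by omega) ih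
  rw [pow_mul, pow_mul]
  exact Ideal.mem_of_dvd _ (sub_dvd_pow_sub_pow _ _ m) (hk k)

include hpI in
/-- The power `p ^ r` is the expansion twisted by a lift of Frobenius. -/
theorem expand_sub_pow_mem (hp : p.Prime) (θ : A →+* A) (r : ℕ)
    (hθ : ∀ a, θ a - a ^ p ^ r ∈ I) (φ : MvPowerSeries ι A) :
    φ ^ p ^ r - (φ.map θ).expand (p ^ r) (pow_ne_zero r hp.ne_zero) ∈ seriesIdeal I := by
  intro e
  rw [← Ideal.Quotient.eq_zero_iff_mem, ← coeff_map]
  set ρ := Ideal.Quotient.mk I
  rcases subsingleton_or_nontrivial (A ⧸ I) with h | h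
  · exact Subsingleton.elim _ _
  have := Fact.mk hp
  have : CharP (A ⧸ I) p := (CharP.charP_iff_prime_eq_zero hp).2 (by
    rw [← map_natCast ρ]; exact Ideal.Quotient.eq_zero_iff_mem.2 hpI)
  have : ExpChar (A ⧸ I) p := .prime hp
  have hθ' : (ρ.comp θ) = (iterateFrobenius (A ⧸ I) p r).comp ρ := RingHom.ext fun a => by
    rw [RingHom.comp_apply, RingHom.comp_apply, iterateFrobenius_def, ← map_pow]
    exact Ideal.Quotient.eq.2 (hθ a)
  rw [map_sub, map_pow, map_expand, map_map, hθ', ← map_map, ← map_expand,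
    map_iterateFrobenius_expand p hp.ne_zero, sub_self, map_zero]

end Fermat.Agent.Hazewinkel
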