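import Fermat.Agent.Hazewinkel.FunctionalEquation
import Fermat.Agent.Lazard.Logarithm
import Fermat.Agent.Lazard.Universal
import Mathlib.NumberTheory.Padics.RingHoms
import Mathlib.FieldTheory.Finite.Basic

/-!
# Integral formal group laws from functional equations
-/

set_option autoImplicit false

noncomputable section

open MvPowerSeries Finsupp

namespace Fermat.Agent.Hazewinkel

variable {K : Type*} [CommRing K] {A : Subring K} {I : Ideal A} {p r : ℕ} {σ : K →+* K}
  {s : ℕ → K} {τ : Type*} [Finite τ]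

omit [Finite τ] in
theorem IsFE.add {Q : ℕ} {hQ : Q ≠ 0} {R R' : MvPowerSeries τ K} (h : IsFE A hQ σ s R)
    (h' : IsFE A hQ σ s R') : IsFE A hQ σ s (R + R') := fun e => by
  simp only [map_add, mul_add, Finset.sum_add_distrib]
  convert A.add_mem (h e) (h' e) using 1
  ring

omit [Finite τ] in
theorem coeff_subst_X (h : PowerSeries K) (j : τ) (N : ℕ) :
    coeff (single j N) (PowerSeries.subst (X j : MvPowerSeries τ K) h) = h.coeff N := by
  classical
  rw [PowerSeries.coeff_subst (PowerSeries.HasSubst.X j), finsum_eq_single _ N]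
  · rw [coeff_X_pow, if_pos rfl, smul_eq_mul, mul_one]
  · intro d hd
    rw [coeff_X_pow, if_neg (fun e => hd (by simpa using congrArg (fun f => f j) e.symm)),
      smul_zero]

omit [Finite τ] in
theorem coeff_subst_X_of_ne (h : PowerSeries K) (j : τ) {e : τ →₀ ℕ}
    (he : ∀ N, e ≠ single j N) :
    coeff e (PowerSeries.subst (X j : MvPowerSeries τ K) h) = 0 := by
  classical
  rw [PowerSeries.coeff_subst (PowerSeries.HasSubst.X j), finsum_eq_zero_of_forall_eq_zero]
  intro d
  rw [coeff_X_pow, if_neg (he d), smul_zero]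

variable (hD : IsDatum A I p r σ s)

omit [Finite τ] in
theorem expand_subst_X (h : PowerSeries K) (j : τ) {M : ℕ} (hM : M ≠ 0) :
    (PowerSeries.subst (X j : MvPowerSeries τ K) h).expand M hM =
      PowerSeries.subst (X j : MvPowerSeries τ K) ((h : MvPowerSeries Unit K).expand M hM) := by
  rw [subst_expand (constantCoeff_X j), PowerSeries.subst,
    expand_subst M hM (PowerSeries.HasSubst.X j).const]
  simp only [expand_X]
  rfl

omit [Finite τ] in
theorem IsFE.subst_X {f : PowerSeries K} (hf : IsFE (τ := Unit) A hD.ne_zero σ s f) (j : τ) :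
    IsFE A hD.ne_zero σ s (PowerSeries.subst (X j : MvPowerSeries τ K) f) := fun e => by
  simp only [expand_subst_X]
  by_cases he : ∃ N, e = single j N
  · obtain ⟨N, rfl⟩ := he
    simp only [coeff_subst_X, degree_single]
    have h := hf (single () N)
    rwa [degree_single] at h
  · push Not at he
    simp only [coeff_subst_X_of_ne _ j he, map_zero, mul_zero, Finset.sum_const_zero, sub_zero]
    exact A.zero_mem

variable {f : PowerSeries K} (hf : IsFE (τ := Unit) A hD.ne_zero σ s f)
  (hf0 : f.constantCoeff = 0) (hf1 : f.coeff 1 = 1)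

/-- A law with coefficients in a subring descends to it. -/
def descend (F : FormalGroup K) (h : ∀ e, F.toPowerSeries.coeff e ∈ A) : FormalGroup A where
  toPowerSeries := fun e => ⟨F.toPowerSeries.coeff e, h e⟩
  zero_constantCoeff := Subtype.ext F.zero_constantCoeff
  lin_coeff_X := Subtype.ext F.lin_coeff_X
  lin_coeff_Y := Subtype.ext F.lin_coeff_Y
  assoc := by
    set α : MvPowerSeries (Fin 2) A := fun e => ⟨F.toPowerSeries.coeff e, h e⟩
    have hα : α.constantCoeff = 0 := Subtype.ext F.zero_constantCoeff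
    show Lazard.assocLeft α = Lazard.assocRight α
    have hmap : α.map A.subtype = F.toPowerSeries := MvPowerSeries.ext fun e => rfl
    ext e
    have h1 : coeff e ((Lazard.assocLeft α).map A.subtype) =
        coeff e ((Lazard.assocRight α).map A.subtype) := by
      rw [Lazard.map_assocLeft _ hα, Lazard.map_assocRight _ hα, hmap]
      exact congrArg (coeff e) F.assoc
    rw [coeff_map, coeff_map] at h1
    exact h1

include hD hf hf0 hf1 in
/-- The law with a logarithm which satisfies a functional equation is integral. -/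
theorem exists_integral_law :
    ∃ G : FormalGroup A, G.IsComm ∧ PowerSeries.subst (G.toPowerSeries.map A.subtype) f =
      PowerSeries.subst (X 0 : MvPowerSeries (Fin 2) K) f +
        PowerSeries.subst (X 1 : MvPowerSeries (Fin 2) K) f := by
  set F := Lazard.ofLog f hf0 hf1
  have hlog : PowerSeries.subst F.toPowerSeries f =
      PowerSeries.subst (X 0 : MvPowerSeries (Fin 2) K) f +
        PowerSeries.subst (X 1 : MvPowerSeries (Fin 2) K) f := by
    simpa [F, Lazard.ofLog, MvPowerSeries.subst_self] using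
      Lazard.log_addLogSeries f hf0 hf1 MvPowerSeries.X MvPowerSeries.constantCoeff_X
  have hmem : ∀ e, F.toPowerSeries.coeff e ∈ A :=
    coeff_mem_of_isFE hD hf hf0 ⟨1, A.one_mem, by rw [hf1, one_mul]⟩ _ F.zero_constantCoeff
      (hlog ▸ (hf.subst_X hD 0).add (hf.subst_X hD 1))
  refine ⟨descend F hmem, ⟨?_⟩, ?_⟩
  · set α : MvPowerSeries (Fin 2) A := fun e => ⟨F.toPowerSeries.coeff e, hmem e⟩
    show α = Lazard.swapped α
    have hmap : α.map A.subtype = F.toPowerSeries := MvPowerSeries.ext fun e => rfl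
    ext e
    have h1 : coeff e (α.map A.subtype) = coeff e ((Lazard.swapped α).map A.subtype) := by
      rw [Lazard.map_swapped, hmap]
      exact congrArg (coeff e) FormalGroup.IsComm.comm
    rw [coeff_map, coeff_map] at h1
    exact h1
  · rw [show (descend F hmem).toPowerSeries.map A.subtype = F.toPowerSeries from
      MvPowerSeries.ext fun e => rfl, hlog]

include hD hf hf0 hf1 in
/-- Logarithms with functional equations of the same type are related by an integral series. -/
theorem exists_integral_change (f' : PowerSeries K) (hf'0 : f'.constantCoeff = 0)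
    (hf' : IsFE (τ := Unit) A hD.ne_zero σ s f') :
    ∃ α : PowerSeries A, PowerSeries.subst (PowerSeries.map A.subtype α) f = f' := by
  have hu : IsUnit (f.coeff 1) := by rw [hf1]; exact isUnit_one
  set φ := PowerSeries.subst f' (f.substInvOfIsUnit hu)
  have hφ0 : φ.constantCoeff = 0 := PowerSeries.constantCoeff_subst_eq_zero hf'0 _
    (PowerSeries.constantCoeff_substInvOfIsUnit f hu)
  have hφ : PowerSeries.subst φ f = f' := by
    have h' := PowerSeries.HasSubst.of_constantCoeff_zero' hf'0
    rw [← PowerSeries.subst_comp_subst_apply (PowerSeries.HasSubst.substInvOfIsUnit f hu) h',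
      PowerSeries.subst_substInvOfIsUnit_right f hf0, PowerSeries.subst_X h']
  have hmem : ∀ e, coeff e (φ : MvPowerSeries Unit K) ∈ A :=
    coeff_mem_of_isFE hD hf hf0 ⟨1, A.one_mem, by rw [hf1, one_mul]⟩ φ hφ0 (hφ.symm ▸ hf')
  refine ⟨fun e => ⟨coeff e (φ : MvPowerSeries Unit K), hmem e⟩, ?_⟩
  rw [show PowerSeries.map A.subtype (fun e => ⟨coeff e (φ : MvPowerSeries Unit K), hmem e⟩) = φ
    from MvPowerSeries.ext fun e => rfl]
  exact hφ

/-- The solution of the functional equation with constant term `g`. -/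
def feCoeff {Q : ℕ} (hQ : 2 ≤ Q) (σ : K →+* K) (s : ℕ → K) (g : ℕ → K) : ℕ → K
  | N => g N + ∑ i ∈ (Finset.Icc 1 N).attach,
      if Q ^ i.1 ∣ N then s i.1 * (σ ^ i.1) (feCoeff hQ σ s g (N / Q ^ i.1)) else 0
  termination_by N => N
  decreasing_by
    have h := Finset.mem_Icc.1 i.2
    exact Nat.div_lt_self (by omega) (Nat.one_lt_pow (by omega) hQ)

theorem exists_isFE {Q : ℕ} (hQ : 2 ≤ Q) (g : ℕ → K) (hg : ∀ n, g n ∈ A) (hg0 : g 0 = 0)
    (hg1 : g 1 = 1) : ∃ f : PowerSeries K, f.constantCoeff = 0 ∧ f.coeff 1 = 1 ∧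
      IsFE (τ := Unit) A (show Q ≠ 0 by omega) σ s f := by
  classical
  refine ⟨PowerSeries.mk (feCoeff hQ σ s g), ?_, ?_, fun e => ?_⟩
  · rw [← PowerSeries.coeff_zero_eq_constantCoeff_apply, PowerSeries.coeff_mk, feCoeff,
      Finset.sum_eq_zero fun i _ => absurd (Finset.mem_Icc.1 i.2) (by omega), add_zero, hg0]
  · rw [PowerSeries.coeff_mk, feCoeff, Finset.sum_eq_zero, add_zero, hg1]
    rintro ⟨i, hi⟩ -
    refine if_neg fun (h : Q ^ i ∣ 1) => ?_
    have := Nat.le_of_dvd one_pos h
    have := Nat.one_lt_pow (by have := Finset.mem_Icc.1 hi; omega : i ≠ 0) hQ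
    omega
  · obtain ⟨N, rfl⟩ : ∃ N, e = single () N := ⟨e (), Finsupp.unique_single e⟩
    rw [degree_single]
    show PowerSeries.coeff N (PowerSeries.mk (feCoeff hQ σ s g)) - _ ∈ A
    rw [PowerSeries.coeff_mk, feCoeff,
      ← Finset.sum_attach (Finset.Icc 1 N) (fun i => s i * (σ ^ i) (coeff (single () N)
        ((PowerSeries.mk (feCoeff hQ σ s g) : MvPowerSeries Unit K).expand (Q ^ i)
          (pow_ne_zero i (by omega)))))]
    convert hg N using 1
    rw [add_sub_assoc, add_eq_left, sub_eq_zero]
    refine Finset.sum_congr rfl fun i _ => ?_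
    split_ifs with h
    · obtain ⟨c, hc⟩ := h
      rw [show N / Q ^ i.1 = c from Nat.div_eq_of_eq_mul_right (pow_pos (by omega) _) hc,
        show single () N = Q ^ i.1 • single () c from
          ((smul_single _ _ _).trans (congrArg (single ()) hc.symm)).symm,
        coeff_expand_smul]
      exact congrArg (fun z => s i.1 * (σ ^ i.1) z)
        (PowerSeries.coeff_mk c (feCoeff hQ σ s g)).symm
    · rw [coeff_expand_of_not_dvd _ _ _ (i := ()) (by simpa using h), map_zero, mul_zero]

/-- The classical datum: `σ = 1`, `s₁ = 1 / p` over the `p`-adic numbers. -/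
theorem isDatum_padic (p : ℕ) [hp : Fact p.Prime] :
    IsDatum (PadicInt.subring p) (Ideal.span {((p : ℕ) : PadicInt.subring p)}) p 1
      (RingHom.id ℚ_[p]) (fun i => if i = 1 then (p : ℚ_[p])⁻¹ else 0) where
  prime := hp.out
  one_le := le_rfl
  natCast_mem := Ideal.mem_span_singleton_self _
  congr a := ⟨a, rfl, by
    have h : (show ℤ_[p] from a) ^ p - (show ℤ_[p] from a) ∈
        Ideal.span {(p : ℤ_[p])} := by
      rw [← PadicInt.maximalIdeal_eq_span_p, ← PadicInt.ker_toZMod, RingHom.mem_ker, map_sub,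
        map_pow, ZMod.pow_card, sub_self]
    rw [pow_one, ← neg_sub]
    exact neg_mem h⟩
  stable b k h := h
  integral i _ a ha := by
    split_ifs with h1
    · obtain ⟨c, rfl⟩ := Ideal.mem_span_singleton'.1 ha
      rw [Subring.coe_mul, mul_comm (c : ℚ_[p]), ← mul_assoc]
      have hp0 : (p : ℚ_[p]) ≠ 0 := Nat.cast_ne_zero.2 hp.out.ne_zero
      rw [show (((p : ℕ) : PadicInt.subring p) : ℚ_[p]) = p from rfl, inv_mul_cancel₀ hp0, one_mul]
      exact c.2
    · rw [zero_mul]
      exact Subring.zero_mem _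

/-- The series `∑ₖ X ^ (p ^ k) / p ^ k`. -/
def pTypicalLog (p : ℕ) [Fact p.Prime] : PowerSeries ℚ_[p] :=
  PowerSeries.mk fun n => if n = p ^ Nat.log p n then (n : ℚ_[p])⁻¹ else 0

theorem pTypicalLog_zero (p : ℕ) [Fact p.Prime] : (pTypicalLog p).constantCoeff = 0 := by
  rw [← PowerSeries.coeff_zero_eq_constantCoeff_apply, pTypicalLog, PowerSeries.coeff_mk]
  simp

theorem pTypicalLog_one (p : ℕ) [Fact p.Prime] : (pTypicalLog p).coeff 1 = 1 := by
  rw [pTypicalLog, PowerSeries.coeff_mk]
  simp

theorem isFE_pTypicalLog (p : ℕ) [hp : Fact p.Prime] :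
    IsFE (τ := Unit) (PadicInt.subring p) (isDatum_padic p).ne_zero (RingHom.id ℚ_[p])
      (fun i => if i = 1 then (p : ℚ_[p])⁻¹ else 0) (pTypicalLog p) := by
  classical
  intro e
  obtain ⟨N, rfl⟩ : ∃ N, e = single () N := ⟨e (), Finsupp.unique_single e⟩
  rw [degree_single]
  rcases Nat.lt_or_ge N 2 with hN | hN
  · have hf : coeff (single () N) (pTypicalLog p) = ((if N = 1 then 1 else 0 : ℕ) : ℚ_[p]) := by
      show (pTypicalLog p).coeff N = _
      interval_cases N
      · rw [PowerSeries.coeff_zero_eq_constantCoeff_apply, pTypicalLog_zero]; simp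
      · rw [pTypicalLog_one]; simp
    rw [hf, Finset.sum_eq_zero, sub_zero]
    · exact natCast_mem _ _
    intro i hi
    have hi' := Finset.mem_Icc.1 hi
    rw [coeff_expand_of_not_dvd _ _ _ (i := ()), map_zero, mul_zero]
    intro h
    rw [single_eq_same] at h
    have := Nat.le_of_dvd (by omega) h
    have := Nat.one_lt_pow (by omega : i ≠ 0) (isDatum_padic p).two_le
    omega
  rw [Finset.sum_eq_single_of_mem 1 (Finset.mem_Icc.2 ⟨le_rfl, by omega⟩)
    (fun i _ hi => by simp [hi]), show (RingHom.id ℚ_[p] ^ 1) = RingHom.id ℚ_[p] from pow_one _,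
    RingHom.id_apply]
  simp only [if_true]
  suffices h : coeff (single () N) (pTypicalLog p) = (p : ℚ_[p])⁻¹ *
      coeff (single () N) ((pTypicalLog p : MvPowerSeries Unit ℚ_[p]).expand ((p ^ 1) ^ 1)
        (pow_ne_zero 1 (isDatum_padic p).ne_zero)) by
    rw [h, sub_self]
    exact Subring.zero_mem _
  show (pTypicalLog p).coeff N = _
  by_cases hdvd : p ∣ N
  · obtain ⟨M, rfl⟩ := hdvd
    have hM : M ≠ 0 := fun h => by rw [h, mul_zero] at hN; omega
    rw [show single () (p * M) = ((p ^ 1) ^ 1) • single () M by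
      rw [smul_single, smul_eq_mul, pow_one, pow_one], coeff_expand_smul]
    show _ = (p : ℚ_[p])⁻¹ * (pTypicalLog p).coeff M
    rw [pTypicalLog, PowerSeries.coeff_mk, PowerSeries.coeff_mk, mul_comm p M,
      Nat.log_mul_base hp.out.one_lt hM]
    simp only [pow_succ, mul_left_inj' hp.out.ne_zero]
    split_ifs
    · rw [Nat.cast_mul, mul_inv, mul_comm]
    · rw [mul_zero]
  · rw [coeff_expand_of_not_dvd _ _ _ (i := ()) (by simpa using hdvd), mul_zero, pTypicalLog,
      PowerSeries.coeff_mk, if_neg]
    intro h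
    have hpos := Nat.log_pos hp.out.one_lt (Nat.le_of_not_lt fun hlt => by
      rw [Nat.log_of_lt hlt, pow_zero] at h
      omega)
    exact hdvd (h ▸ dvd_pow_self p (by omega))

end Fermat.Agent.Hazewinkel
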