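import Fermat.Agent.Hazewinkel.Congruence
import Fermat.Agent.LubinTate.Equation
import Mathlib.Algebra.Ring.Subring.Basic

/-!
# The functional equation lemma of Hazewinkel
-/

set_option autoImplicit false

noncomputable section

open MvPowerSeries Finsupp

namespace Fermat.Agent.Hazewinkel

variable {K : Type*} [CommRing K]

/-- `b` multiplies the `k`-th power of `I` into `J`. -/
def MapsInto {A : Subring K} (I : Ideal A) (b : K) (k : ℕ) (J : Ideal A) : Prop :=
  ∀ a ∈ I ^ k, ∃ c ∈ J, (c : K) = b * (a : K)

/-- The data of a functional equation. -/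
structure IsDatum (A : Subring K) (I : Ideal A) (p r : ℕ) (σ : K →+* K) (s : ℕ → K) : Prop where
  prime : p.Prime
  one_le : 1 ≤ r
  natCast_mem : (p : A) ∈ I
  congr : ∀ a : A, ∃ c : A, (c : K) = σ a ∧ c - a ^ p ^ r ∈ I
  stable : ∀ (b : K) (k : ℕ), MapsInto I b k I → MapsInto I (σ b) k I
  integral : ∀ i, 1 ≤ i → ∀ a ∈ I, s i * (a : K) ∈ A

variable {τ : Type*}

/-- A series satisfies a functional equation with integral constant term. -/
def IsFE (A : Subring K) {Q : ℕ} (hQ : Q ≠ 0) (σ : K →+* K) (s : ℕ → K)
    (R : MvPowerSeries τ K) : Prop :=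
  ∀ e, coeff e R - ∑ i ∈ Finset.Icc 1 (degree e),
    s i * (σ ^ i) (coeff e (R.expand (Q ^ i) (pow_ne_zero i hQ))) ∈ A

theorem coeff_expand_eq_zero_of_lt {M : ℕ} (hM : M ≠ 0) {R : MvPowerSeries τ K}
    {e : τ →₀ ℕ} (he : e ≠ 0) (hlt : degree e < M) : coeff e (R.expand M hM) = 0 := by
  obtain ⟨i, hi⟩ := Finsupp.ne_iff.1 he
  refine coeff_expand_of_not_dvd M hM R (i := i) fun h => ?_
  have h1 := Nat.le_of_dvd (Nat.pos_of_ne_zero hi) h
  have h2 := Finsupp.le_degree i e
  omega

variable {A : Subring K} {I : Ideal A} {p r : ℕ} {σ : K →+* K} {s : ℕ → K}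

theorem IsFE.sum_mem {Q : ℕ} {hQ : Q ≠ 0} {R : MvPowerSeries τ K} (hR : IsFE A hQ σ s R)
    (hQ2 : 2 ≤ Q) (hR0 : R.constantCoeff = 0) {e : τ →₀ ℕ} {n : ℕ} (hn : degree e ≤ n) :
    coeff e R - ∑ i ∈ Finset.Icc 1 n,
      s i * (σ ^ i) (coeff e (R.expand (Q ^ i) (pow_ne_zero i hQ))) ∈ A := by
  have h := hR e
  rwa [Finset.sum_subset (Finset.Icc_subset_Icc_right hn) fun i hi hi' => ?_] at h
  simp only [Finset.mem_Icc, not_and, not_le] at hi hi'
  rcases eq_or_ne e 0 with rfl | he
  · rw [coeff_zero_eq_constantCoeff_apply, constantCoeff_expand, hR0, map_zero, mul_zero]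
  · rw [coeff_expand_eq_zero_of_lt _ he ((hi' hi.1).trans (Nat.lt_pow_self (by omega))),
      map_zero, mul_zero]

theorem MapsInto.succ {b : K} {k : ℕ} (h : MapsInto I b k ⊤) : MapsInto I b (k + 1) I := by
  intro a ha
  rw [pow_succ] at ha
  refine Submodule.mul_induction_on ha (fun x hx y hy => ?_) fun x y hx hy => ?_
  · obtain ⟨c, -, hc⟩ := h x hx
    exact ⟨c * y, I.mul_mem_left _ hy, by
      rw [Subring.coe_mul, hc, Subring.coe_mul, mul_assoc]⟩
  · obtain ⟨c, hc, hc'⟩ := hx
    obtain ⟨d, hd, hd'⟩ := hy
    exact ⟨c + d, add_mem hc hd, by rw [Subring.coe_add, hc', hd', Subring.coe_add, mul_add]⟩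

theorem MapsInto.mem {b : K} {k : ℕ} {J : Ideal A} (h : MapsInto I b k J) {a : A}
    (ha : a ∈ I ^ k) : b * (a : K) ∈ A := by
  obtain ⟨c, -, hc⟩ := h a ha
  exact hc ▸ c.2

variable (hD : IsDatum A I p r σ s)

include hD in
theorem IsDatum.two_le : 2 ≤ p ^ r :=
  hD.prime.two_le.trans (Nat.le_self_pow (by have := hD.one_le; omega) p)

include hD in
theorem IsDatum.ne_zero : p ^ r ≠ 0 := pow_ne_zero r hD.prime.ne_zero

include hD in
theorem IsDatum.stable_pow (b : K) (k i : ℕ) (h : MapsInto I b k I) :
    MapsInto I ((σ ^ i) b) k I := by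
  induction i with
  | zero => exact h
  | succ i ih => rw [pow_succ', RingHom.mul_def, RingHom.comp_apply]; exact hD.stable _ _ ih

include hD in
theorem IsDatum.exists_lift (i : ℕ) : ∃ θ : A →+* A,
    (∀ a, (θ a : K) = (σ ^ i) a) ∧ ∀ a, θ a - a ^ p ^ (r * i) ∈ I := by
  induction i with
  | zero => exact ⟨RingHom.id A, fun a => rfl, fun a => by simp⟩
  | succ i ih =>
    obtain ⟨θ, hθ, hθ'⟩ := ih
    let θ₁ : A →+* A := RingHom.codRestrict (σ.comp A.subtype) A fun a => by
      obtain ⟨c, hc, -⟩ := hD.congr a
      exact (hc ▸ c.2 : σ a ∈ A)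
    refine ⟨θ₁.comp θ, fun a => ?_, fun a => ?_⟩
    · rw [pow_succ', RingHom.mul_def, RingHom.comp_apply, RingHom.comp_apply, ← hθ]
      rfl
    · obtain ⟨c, hc, hc'⟩ := hD.congr (θ a)
      rw [show (θ₁.comp θ) a = c from Subtype.ext hc.symm]
      rw [← Ideal.Quotient.eq] at hc' ⊢
      rw [hc', map_pow, Ideal.Quotient.eq.2 (hθ' a), ← map_pow, ← pow_mul, ← pow_add,
        Nat.mul_succ]

variable {f : PowerSeries K} (hf : IsFE (τ := Unit) A hD.ne_zero σ s f)
  (hf0 : f.constantCoeff = 0)

include hf hf0 in
/-- The denominators of a logarithm. -/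
theorem mapsInto_coeff : ∀ N k, ¬(p ^ r) ^ (k + 1) ∣ N → MapsInto I (f.coeff N) k ⊤ := by
  classical
  intro N
  induction N using Nat.strong_induction_on with
  | _ N ih =>
    intro k hk a ha
    refine ⟨⟨f.coeff N * (a : K), ?_⟩, Submodule.mem_top, rfl⟩
    have hN : N ≠ 0 := fun h => hk (h ▸ dvd_zero _)
    have h := hf.sum_mem (e := single () N) hD.two_le hf0 le_rfl
    rw [degree_single] at h
    have hsum : (∑ i ∈ Finset.Icc 1 N, s i * (σ ^ i) (coeff (single () N)
        ((f : MvPowerSeries Unit K).expand ((p ^ r) ^ i) (pow_ne_zero i hD.ne_zero)))) * (a : K)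
          ∈ A := by
      rw [Finset.sum_mul]
      refine A.sum_mem fun i hi => ?_
      have hi1 := (Finset.mem_Icc.1 hi).1
      by_cases hd : (p ^ r) ^ i ∣ N
      · obtain ⟨N', rfl⟩ := hd
        have hik : i ≤ k := by
          by_contra hlt
          exact hk ((pow_dvd_pow _ (by omega : k + 1 ≤ i)).mul_right N')
        rw [show single () ((p ^ r) ^ i * N') = (p ^ r) ^ i • single () N' by
          rw [smul_single, smul_eq_mul], coeff_expand_smul]
        have hlt : N' < (p ^ r) ^ i * N' := lt_mul_left
          (Nat.pos_of_ne_zero fun h => hN (by rw [h, mul_zero]))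
          (Nat.one_lt_pow (by omega) hD.two_le)
        have hk' : ¬(p ^ r) ^ (k - i + 1) ∣ N' := fun h => hk <| by
          rw [show k + 1 = i + (k - i + 1) by omega, pow_add]
          exact Nat.mul_dvd_mul_left _ h
        have hmaps := hD.stable_pow _ _ i (ih N' hlt (k - i) hk').succ
        rw [show k = k - i + 1 + (i - 1) by omega, pow_add] at ha
        refine Submodule.mul_induction_on ha (fun x hx y _ => ?_) fun x y hx hy => ?_
        · obtain ⟨c, hc, hc'⟩ := hmaps x hx
          rw [Subring.coe_mul, ← mul_assoc, mul_assoc (s i)]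
          refine A.mul_mem ?_ y.2
          rw [show coeff (single () N') (f : MvPowerSeries Unit K) = f.coeff N' from rfl, ← hc']
          exact hD.integral i hi1 c hc
        · rw [Subring.coe_add, mul_add]
          exact A.add_mem hx hy
      · rw [coeff_expand_of_not_dvd _ _ _ (i := ()) (by simpa using hd), map_zero, mul_zero,
          zero_mul]
        exact A.zero_mem
    have h2 := A.add_mem (A.mul_mem h a.2) hsum
    rw [sub_mul, sub_add_cancel] at h2
    exact h2

theorem coeff_subst_eq_sum {φ : MvPowerSeries τ K} (hφ : φ.constantCoeff = 0) (g : PowerSeries K)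
    {e : τ →₀ ℕ} {n : ℕ} (he : degree e ≤ n) :
    coeff e (PowerSeries.subst φ g) = ∑ N ∈ Finset.range (n + 1), g.coeff N * coeff e (φ ^ N) := by
  rw [PowerSeries.coeff_subst (PowerSeries.HasSubst.of_constantCoeff_zero hφ),
    finsum_eq_sum_of_support_subset]
  · exact Finset.sum_congr rfl fun N _ => smul_eq_mul ..
  · intro N hN
    rw [Finset.coe_range, Set.mem_Iio]
    by_contra hlt
    refine hN ?_
    show g.coeff N • coeff e (φ ^ N) = 0
    rw [coeff_of_lt_order (f := φ ^ N), smul_zero]
    exact lt_of_lt_of_le (by exact_mod_cast (by omega : degree e < N))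
      (le_order_pow_of_constantCoeff_eq_zero N hφ)

theorem subst_expand {φ : MvPowerSeries τ K} (hφ : φ.constantCoeff = 0) (g : PowerSeries K)
    {M : ℕ} (hM : M ≠ 0) :
    PowerSeries.subst φ ((g : MvPowerSeries Unit K).expand M hM) =
      PowerSeries.subst (φ ^ M) g := by
  have h := (PowerSeries.HasSubst.of_constantCoeff_zero hφ).const
  rw [expand, coe_substAlgHom, PowerSeries.subst, subst_comp_subst_apply (HasSubst.X_pow hM) h]
  congr 1
  funext u
  rw [subst_pow h, subst_X h]

include hf hf0 in
/-- **The functional equation lemma of Hazewinkel**: if `f` and `f (F)` satisfy functional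
equations of the same type, `F` is integral. -/
theorem coeff_mem_of_isFE [Finite τ] (hu : ∃ v ∈ A, v * f.coeff 1 = 1) (F : MvPowerSeries τ K)
    (hF0 : F.constantCoeff = 0) (hR : IsFE A hD.ne_zero σ s (PowerSeries.subst F f)) :
    ∀ e, coeff e F ∈ A := by
  classical
  suffices ∀ n e, degree e = n → coeff e F ∈ A from fun e => this _ e rfl
  intro n
  induction n using Nat.strong_induction_on with
  | _ n ih =>
    intro e he
    rcases Nat.eq_zero_or_pos n with rfl | hn
    · rw [(Finsupp.degree_eq_zero_iff e).1 he, coeff_zero_eq_constantCoeff_apply, hF0]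
      exact A.zero_mem
    -- the part of lower degree
    set α : MvPowerSeries τ A := fun d =>
      if h : degree d < n then ⟨coeff d F, ih _ h d rfl⟩ else 0
    set ια := α.map A.subtype
    have hια : ∀ d, coeff d ια = if degree d < n then coeff d F else 0 := fun d => by
      show ((α d : A) : K) = _
      simp only [α]
      split_ifs <;> rfl
    have hα0 : ια.constantCoeff = 0 := by
      rw [← coeff_zero_eq_constantCoeff_apply, hια, map_zero, if_pos hn,
        coeff_zero_eq_constantCoeff_apply, hF0]
    have hord : (n : ℕ∞) ≤ (F - ια).order := nat_le_order fun d hd => by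
      rw [map_sub, hια, if_pos hd, sub_self]
    have hsplit : ∀ d, degree d ≤ n → coeff d (PowerSeries.subst F f) =
        coeff d (PowerSeries.subst ια f) + f.coeff 1 * coeff d (F - ια) := by
      intro d hd
      rw [coeff_subst_eq_sum hF0 f hd, coeff_subst_eq_sum hα0 f hd]
      rw [← sub_eq_iff_eq_add', ← Finset.sum_sub_distrib, Finset.sum_eq_single 1]
      · rw [← mul_sub, pow_one, pow_one, map_sub]
      · intro N _ hN
        rw [← mul_sub, ← map_sub]
        rcases (by omega : N = 0 ∨ 2 ≤ N) with rfl | hN2
        · simp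
        · have h := LubinTate.le_order_pow_sub hα0 hn hord hN2
          rw [add_sub_cancel] at h
          rw [coeff_of_lt_order (lt_of_lt_of_le (by exact_mod_cast Nat.lt_succ_of_le hd) h),
            mul_zero]
      · intro h; exact absurd (Finset.mem_range.2 (by omega)) h
    have hmain : coeff e (PowerSeries.subst F f) - coeff e (PowerSeries.subst ια f) ∈ A := by
      set R := PowerSeries.subst F f with hRdef
      have hR0 : R.constantCoeff = 0 :=
        PowerSeries.constantCoeff_subst_eq_zero hF0 f hf0
      have h1 := hR.sum_mem hD.two_le hR0 (e := e) he.le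
      -- the equation of `f` at the lower part
      have h2 : coeff e (PowerSeries.subst ια f) - ∑ i ∈ Finset.Icc 1 n, s i * coeff e
          (PowerSeries.subst (ια ^ (p ^ r) ^ i) (PowerSeries.map (σ ^ i) f)) ∈ A := by
        have hterm : ∀ i, coeff e (PowerSeries.subst (ια ^ (p ^ r) ^ i)
            (PowerSeries.map (σ ^ i) f)) = ∑ N ∈ Finset.range (n + 1),
              (σ ^ i) (coeff (single () N) ((f : MvPowerSeries Unit K).expand ((p ^ r) ^ i)
                (pow_ne_zero i hD.ne_zero))) * coeff e (ια ^ N) := fun i => by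
          rw [← subst_expand hα0 _ (pow_ne_zero i hD.ne_zero), coeff_subst_eq_sum hα0 _ he.le]
          refine Finset.sum_congr rfl fun N _ => congrArg (· * _) ?_
          show coeff (single () N) ((MvPowerSeries.map (σ ^ i) (f : MvPowerSeries Unit K)).expand _
            _) = _
          rw [← map_expand, coeff_map]
        simp only [hterm, coeff_subst_eq_sum hα0 f he.le, Finset.mul_sum]
        rw [Finset.sum_comm, ← Finset.sum_sub_distrib]
        refine A.sum_mem fun N hN => ?_
        simp only [← mul_assoc, ← Finset.sum_mul, ← sub_mul]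
        refine A.mul_mem ?_ ?_
        · exact hf.sum_mem hD.two_le hf0 (e := single () N)
            (by rw [degree_single]; exact Nat.lt_succ_iff.1 (Finset.mem_range.1 hN))
        · rw [← map_pow, coeff_map]
          exact (coeff e (α ^ N)).2
      -- the congruence of the Frobenius twists
      have h3 : ∀ i ∈ Finset.Icc 1 n, s i * coeff e (PowerSeries.subst (ια ^ (p ^ r) ^ i)
          (PowerSeries.map (σ ^ i) f)) -
          s i * (σ ^ i) (coeff e (R.expand ((p ^ r) ^ i) (pow_ne_zero i hD.ne_zero))) ∈ A := by
        intro i hi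
        obtain ⟨hi1, -⟩ := Finset.mem_Icc.1 hi
        obtain ⟨θ, hθ, hθ'⟩ := hD.exists_lift i
        set Q := (p ^ r) ^ i
        have hQ : Q ≠ 0 := pow_ne_zero i hD.ne_zero
        set β := (α.map θ).expand Q hQ
        have hβ0 : (β.map A.subtype).constantCoeff = 0 := by
          rw [constantCoeff_map, constantCoeff_expand, constantCoeff_map]
          show ((θ α.constantCoeff : A) : K) = 0
          rw [hθ, show ((α.constantCoeff : A) : K) = 0 from hα0, map_zero]
        have hRexp : (σ ^ i) (coeff e (R.expand Q hQ)) =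
            coeff e (PowerSeries.subst (β.map A.subtype) (PowerSeries.map (σ ^ i) f)) := by
          have hagree : coeff e (R.expand Q hQ) =
              coeff e ((PowerSeries.subst ια f).expand Q hQ) := by
            by_cases hdiv : ∀ t, Q ∣ e t
            · obtain ⟨e', rfl⟩ : ∃ e', Q • e' = e := ⟨e.mapRange (· / Q) (Nat.zero_div Q), by
                ext t; simp [Nat.mul_div_cancel' (hdiv t)]⟩
              rw [coeff_expand_smul, coeff_expand_smul]
              have hlt : degree e' < n := by
                rw [← he, map_nsmul, smul_eq_mul]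
                have : degree e' ≠ 0 := fun h => by
                  rw [map_nsmul, h, smul_zero] at he; omega
                exact lt_mul_left (Nat.pos_of_ne_zero this)
                  (Nat.one_lt_pow (by omega) hD.two_le)
              rw [hRdef, hsplit e' hlt.le, map_sub, hια, if_pos hlt, sub_self, mul_zero, add_zero]
            · push Not at hdiv
              obtain ⟨t, ht⟩ := hdiv
              rw [coeff_expand_of_not_dvd _ _ _ ht, coeff_expand_of_not_dvd _ _ _ ht]
          rw [hagree, ← coeff_map, map_expand, PowerSeries.map_subst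
            (PowerSeries.HasSubst.of_constantCoeff_zero hα0)]
          congr 1
          rw [PowerSeries.subst, expand_subst Q hQ (PowerSeries.HasSubst.of_constantCoeff_zero (by
            rw [constantCoeff_map, hα0, map_zero])).const]
          congr 1
          funext u
          show (ια.map (σ ^ i)).expand Q hQ = β.map A.subtype
          rw [map_expand, map_map, map_map,
            show A.subtype.comp θ = (σ ^ i).comp A.subtype from RingHom.ext hθ]
        have hQ1 : (ια ^ Q).constantCoeff = 0 := by rw [map_pow, hα0, zero_pow hQ]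
        rw [hRexp, coeff_subst_eq_sum hQ1 _ he.le, coeff_subst_eq_sum hβ0 _ he.le, ← mul_sub,
          ← Finset.sum_sub_distrib, Finset.mul_sum]
        refine A.sum_mem fun N _ => ?_
        rw [← mul_sub, PowerSeries.coeff_map, ← map_pow, ← map_pow, ← map_pow, coeff_map,
          coeff_map, ← map_sub, ← map_sub]
        rcases Nat.eq_zero_or_pos N with rfl | hN
        · rw [pow_zero, pow_zero, sub_self, map_zero, map_zero, mul_zero, mul_zero]
          exact A.zero_mem
        have hex : ∃ k, ¬(p ^ r) ^ (k + 1) ∣ N := ⟨N, fun h =>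
          ((Nat.lt_succ_self N).trans (Nat.lt_pow_self hD.two_le)).not_ge (Nat.le_of_dvd hN h)⟩
        have hdvd : p ^ Nat.find hex ∣ N := by
          rcases Nat.eq_zero_or_pos (Nat.find hex) with h | h
          · simp [h]
          · have hmin := Nat.find_min hex (Nat.sub_lt h one_pos)
            rw [not_not, show Nat.find hex - 1 + 1 = Nat.find hex by omega, ← pow_mul] at hmin
            exact (pow_dvd_pow _ (Nat.le_mul_of_pos_left _ hD.one_le)).trans hmin
        have hcong : α ^ Q - β ∈ seriesIdeal I := by
          have h := expand_sub_pow_mem hD.natCast_mem hD.prime θ (r * i) hθ' α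
          simp only [pow_mul] at h
          exact h
        obtain ⟨c, hc, hc'⟩ := hD.stable_pow _ _ i
          (mapsInto_coeff hD hf hf0 N _ (Nat.find_spec hex)).succ _
          (pow_sub_pow_mem hD.natCast_mem hcong hdvd e)
        rw [Subring.subtype_apply, ← hc']
        exact hD.integral i hi1 c hc
      have := A.sub_mem (A.sub_mem h1 h2) (A.sum_mem h3)
      rw [Finset.sum_sub_distrib] at this
      convert this using 1
      ring
    rw [hsplit e he.le, add_sub_cancel_left, map_sub, hια, if_neg (by omega), sub_zero] at hmain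
    obtain ⟨v, hv, hv'⟩ := hu
    have := A.mul_mem hv hmain
    rwa [← mul_assoc, hv', one_mul] at this

end Fermat.Agent.Hazewinkel
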